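import Fermat.Agent.S26.Spec
import Mathlib.AlgebraicGeometry.Geometrically.Integral

/-!
# Row S26, block CUBE, leaf BC: base change of an abelian variety (helper658)

For `X : AbVar K`, a field `F` and `ψ : Spec F ⟶ Spec K` we construct the abelian variety
`bc X ψ hconn : AbVar F` on the scheme `A ×_K Spec F`, with the dictionary between `T`-valued
points (`T` an `F`-scheme):

* `bcObj ψ f`, `bcHom ψ f : bcObj ψ f ⟶ Spec F`, `bcFst ψ f : bcObj ψ f ⟶ A`;
* `bcPt ψ f t : SchemeHomOver (t ≫ ψ) f ≃ SchemeHomOver t (bcHom ψ f)` (`ptUp`, `ptDown`);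
* `bcLaw ψ G : RelativeGroupLaw F (bcHom ψ f)`, the law transported along `bcPt`;
* `bc X ψ hconn : AbVar F` (`hconn : ConnectedSpace (bcObj ψ X.str)`);
* `connectedSpace_bcObj` : `hconn` holds if `X.str` is geometrically integral;
* `baseChange_exists` : the unfolded form of `Cube.BaseChangeExists K` (`Cube/Spec.lean`) from
  the unfolded form of `Cube.GeomIntegral K`.

Needed by step (G2) of `coord/S26-CUBE.md`.  Everything is formal (universal property of the
pull-back + stability of smooth/proper under base change).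
-/

set_option autoImplicit false
universe u

open CategoryTheory CategoryTheory.Limits AlgebraicGeometry NeronModelInfra GoodReductionJacobian

namespace Fermat.Agent.S26.H658

noncomputable section

variable {K : Type u} [Field K] {F : Type u} [Field F]
variable (ψ : Spec (CommRingCat.of F) ⟶ Spec (CommRingCat.of K))
variable {A : Scheme.{u}} (f : A ⟶ Spec (CommRingCat.of K))

/-- The base change `A ×_K Spec F`. -/
abbrev bcObj : Scheme.{u} := pullback f ψ

/-- The structure morphism of the base change. -/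
abbrev bcHom : bcObj ψ f ⟶ Spec (CommRingCat.of F) := pullback.snd f ψ

/-- The projection `A ×_K Spec F ⟶ A`. -/
abbrev bcFst : bcObj ψ f ⟶ A := pullback.fst f ψ

theorem bcFst_comp : bcFst ψ f ≫ f = bcHom ψ f ≫ ψ := pullback.condition

theorem isPullback_bc : IsPullback (bcFst ψ f) (bcHom ψ f) f ψ := IsPullback.of_hasPullback f ψ

section Points

variable {ψ f}
variable {T T' : Scheme.{u}} {t : T ⟶ Spec (CommRingCat.of F)}
  {t' : T' ⟶ Spec (CommRingCat.of F)}

/-- A `T`-valued point of `A` over `K` (for an `F`-scheme `T`) gives a `T`-valued point of the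
base change. -/
def ptUp (a : SchemeHomOver (t ≫ ψ) f) : SchemeHomOver t (bcHom ψ f) :=
  ⟨pullback.lift a.1 t a.2, pullback.lift_snd _ _ _⟩

/-- A `T`-valued point of the base change gives a `T`-valued point of `A` over `K`. -/
def ptDown (a : SchemeHomOver t (bcHom ψ f)) : SchemeHomOver (t ≫ ψ) f :=
  ⟨a.1 ≫ bcFst ψ f, by rw [Category.assoc, bcFst_comp, ← Category.assoc, a.2]⟩

@[simp] theorem ptUp_coe_fst (a : SchemeHomOver (t ≫ ψ) f) :
    (ptUp a).1 ≫ bcFst ψ f = a.1 := pullback.lift_fst _ _ _

@[simp] theorem ptDown_coe (a : SchemeHomOver t (bcHom ψ f)) :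
    (ptDown a).1 = a.1 ≫ bcFst ψ f := rfl

@[simp] theorem ptDown_ptUp (a : SchemeHomOver (t ≫ ψ) f) : ptDown (ptUp a) = a :=
  Subtype.ext (pullback.lift_fst _ _ _)

@[simp] theorem ptUp_ptDown (a : SchemeHomOver t (bcHom ψ f)) : ptUp (ptDown a) = a := by
  apply Subtype.ext
  apply pullback.hom_ext
  · exact pullback.lift_fst _ _ _
  · rw [show (ptUp (ptDown a)).1 ≫ pullback.snd f ψ = t from (ptUp (ptDown a)).2]
    exact a.2.symm

variable (ψ f t) in
/-- **Points of the base change**: `T`-valued points of `A ×_K Spec F` over `F` are the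
`T`-valued points of `A` over `K`. -/
def bcPt : SchemeHomOver (t ≫ ψ) f ≃ SchemeHomOver t (bcHom ψ f) where
  toFun := ptUp
  invFun := ptDown
  left_inv := ptDown_ptUp
  right_inv := ptUp_ptDown

theorem ptDown_injective : Function.Injective (ptDown (ψ := ψ) (f := f) (t := t)) :=
  (bcPt ψ f t).symm.injective

theorem ptUp_injective : Function.Injective (ptUp (ψ := ψ) (f := f) (t := t)) :=
  (bcPt ψ f t).injective

/-- `ptDown` commutes with pull-back of points. -/
theorem ptDown_comp (φ : T' ⟶ T) (hφ : φ ≫ t = t') (a : SchemeHomOver t (bcHom ψ f)) :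
    ptDown (schemeHomOverComp φ hφ a) =
      schemeHomOverComp φ (by rw [← Category.assoc, hφ]) (ptDown a) :=
  Subtype.ext (by simp [Category.assoc])

/-- `ptUp` commutes with pull-back of points. -/
theorem ptUp_comp (φ : T' ⟶ T) (hφ : φ ≫ t = t') (a : SchemeHomOver (t ≫ ψ) f) :
    ptUp (schemeHomOverComp φ (by rw [← Category.assoc, hφ]) a) =
      schemeHomOverComp φ hφ (ptUp a) := by
  apply ptDown_injective
  rw [ptDown_ptUp, ptDown_comp, ptDown_ptUp]

end Points

section Law

variable {f}
variable (G : RelativeGroupLaw K f)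

/-- **The base change of a group law**, transported along `bcPt`. -/
def bcLaw : RelativeGroupLaw F (bcHom ψ f) where
  mul t x y := ptUp (G.mul (t ≫ ψ) (ptDown x) (ptDown y))
  one t := ptUp (G.one (t ≫ ψ))
  inv t x := ptUp (G.inv (t ≫ ψ) (ptDown x))
  mul_assoc t x y z := by simp only [ptDown_ptUp, G.mul_assoc]
  one_mul t x := by simp only [ptDown_ptUp, G.one_mul, ptUp_ptDown]
  mul_one t x := by simp only [ptDown_ptUp, G.mul_one, ptUp_ptDown]
  inv_mul_cancel t x := by simp only [ptDown_ptUp, G.inv_mul_cancel]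
  mul_natural t t' φ hφ x y := by
    rw [← ptUp_comp φ hφ, G.mul_natural (t ≫ ψ) (t' ≫ ψ) φ (by rw [← Category.assoc, hφ]),
      ← ptDown_comp φ hφ, ← ptDown_comp φ hφ]

variable {ψ}
variable {T : Scheme.{u}} (t : T ⟶ Spec (CommRingCat.of F))

@[simp] theorem ptDown_bcLaw_mul (x y : SchemeHomOver t (bcHom ψ f)) :
    ptDown ((bcLaw ψ G).mul t x y) = G.mul (t ≫ ψ) (ptDown x) (ptDown y) :=
  ptDown_ptUp _

@[simp] theorem ptDown_bcLaw_one : ptDown ((bcLaw ψ G).one t) = G.one (t ≫ ψ) :=
  ptDown_ptUp _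

@[simp] theorem ptDown_bcLaw_inv (x : SchemeHomOver t (bcHom ψ f)) :
    ptDown ((bcLaw ψ G).inv t x) = G.inv (t ≫ ψ) (ptDown x) :=
  ptDown_ptUp _

theorem ptUp_mul (x y : SchemeHomOver (t ≫ ψ) f) :
    ptUp (G.mul (t ≫ ψ) x y) = (bcLaw ψ G).mul t (ptUp x) (ptUp y) := by
  apply ptDown_injective
  rw [ptDown_bcLaw_mul, ptDown_ptUp, ptDown_ptUp, ptDown_ptUp]

theorem ptUp_one : ptUp (G.one (t ≫ ψ)) = (bcLaw ψ G).one t := rfl

theorem ptUp_inv (x : SchemeHomOver (t ≫ ψ) f) :
    ptUp (G.inv (t ≫ ψ) x) = (bcLaw ψ G).inv t (ptUp x) := by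
  apply ptDown_injective
  rw [ptDown_bcLaw_inv, ptDown_ptUp, ptDown_ptUp]

@[simp] theorem ptDown_bcLaw_nsmul (n : ℕ) (x : SchemeHomOver t (bcHom ψ f)) :
    ptDown ((bcLaw ψ G).nsmul t n x) = G.nsmul (t ≫ ψ) n (ptDown x) := by
  induction n with
  | zero => exact ptDown_bcLaw_one G t
  | succ n ih =>
    rw [RelativeGroupLaw.nsmul_succ, RelativeGroupLaw.nsmul_succ, ptDown_bcLaw_mul, ih]

theorem bcLaw_isCommutative (hc : G.IsCommutative) : (bcLaw ψ G).IsCommutative := by
  intro T t x y
  apply ptDown_injective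
  rw [ptDown_bcLaw_mul, ptDown_bcLaw_mul, hc]

/-- Torsion points correspond. -/
theorem isTorsionPoint_bcLaw_iff (n : ℕ) (x : SchemeHomOver t (bcHom ψ f)) :
    (bcLaw ψ G).IsTorsionPoint t n x ↔ G.IsTorsionPoint (t ≫ ψ) n (ptDown x) := by
  rw [RelativeGroupLaw.isTorsionPoint_def, RelativeGroupLaw.isTorsionPoint_def,
    ← ptDown_bcLaw_nsmul, ← ptDown_bcLaw_one G t]
  exact ptDown_injective.eq_iff.symm

/-- The projection is compatible with the group laws (the shape of `Cube.BaseChangeExists`). -/
theorem bcLaw_mul_comp_fst (a b : SchemeHomOver t (bcHom ψ f)) :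
    ((bcLaw ψ G).mul t a b).1 ≫ bcFst ψ f =
      (G.mul (t ≫ ψ)
        ⟨a.1 ≫ bcFst ψ f, by rw [Category.assoc, bcFst_comp, ← Category.assoc, a.2]⟩
        ⟨b.1 ≫ bcFst ψ f, by rw [Category.assoc, bcFst_comp, ← Category.assoc, b.2]⟩).1 :=
  congrArg Subtype.val (ptDown_bcLaw_mul G t a b)

end Law

section Bundle

theorem smoothOfRelativeDimension_bcHom (n : ℕ) [SmoothOfRelativeDimension n f] :
    SmoothOfRelativeDimension n (bcHom ψ f) := by
  have := smoothOfRelativeDimension_isStableUnderBaseChange.{u} (n := n)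
  exact MorphismProperty.pullback_snd _ _ ‹_›

theorem preimage_singleton_eq_univ {X : Scheme.{u}} (g : X ⟶ Spec (CommRingCat.of F))
    (s : Spec (CommRingCat.of F)) : g.base ⁻¹' {s} = Set.univ := by
  ext x
  simp only [Set.mem_preimage, Set.mem_singleton_iff, Set.mem_univ, iff_true]
  exact Subsingleton.elim _ _

/-- Over a field, "connected fibres" means that the total space is connected. -/
theorem isConnected_preimage_iff {X : Scheme.{u}} (g : X ⟶ Spec (CommRingCat.of F)) :
    (∀ s : Spec (CommRingCat.of F), _root_.IsConnected (g.base ⁻¹' {s})) ↔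
      ConnectedSpace X := by
  constructor
  · intro h
    have h1 := h default
    rw [preimage_singleton_eq_univ] at h1
    exact connectedSpace_iff_univ.mpr h1
  · intro h s
    rw [preimage_singleton_eq_univ]
    exact isConnected_univ

/-- The base change of an abelian-scheme property bundle (connectedness as a hypothesis). -/
theorem bundle_bcHom (G : RelativeGroupLaw K f) (h : AbelianSchemePropertyBundle K f)
    (hconn : ConnectedSpace (bcObj ψ f)) : AbelianSchemePropertyBundle F (bcHom ψ f) where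
  smooth := by
    have := h.smooth
    infer_instance
  proper := by
    have := h.proper
    infer_instance
  connectedFibres := (isConnected_preimage_iff _).mpr hconn
  hasGroupLaw := ⟨bcLaw ψ G⟩

/-- If `f` is geometrically integral, the base change `A ×_K Spec F` is integral. -/
theorem isIntegral_bcObj [GeometricallyIntegral f] : IsIntegral (bcObj ψ f) :=
  GeometricallyIntegral.isIntegral_of_subsingleton (bcHom ψ f)

theorem connectedSpace_bcObj [GeometricallyIntegral f] : ConnectedSpace (bcObj ψ f) := by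
  have := isIntegral_bcObj ψ f
  infer_instance

end Bundle

section AbVarBC

variable (X : AbVar K)

/-- **Base change of an abelian variety** along `ψ : Spec F ⟶ Spec K`. -/
def bc (hconn : ConnectedSpace (bcObj ψ X.str)) : AbVar F where
  A := bcObj ψ X.str
  str := bcHom ψ X.str
  law := bcLaw ψ X.law
  comm := bcLaw_isCommutative X.law X.comm
  bundle := bundle_bcHom ψ X.str X.law X.bundle hconn
  dim := X.dim
  smoothDim := by
    have := X.smoothDim
    exact smoothOfRelativeDimension_bcHom ψ X.str X.dim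

variable (hconn : ConnectedSpace (bcObj ψ X.str))

@[simp] theorem bc_A : (bc ψ X hconn).A = bcObj ψ X.str := rfl
@[simp] theorem bc_str : (bc ψ X hconn).str = bcHom ψ X.str := rfl
@[simp] theorem bc_law : (bc ψ X hconn).law = bcLaw ψ X.law := rfl
@[simp] theorem bc_dim : (bc ψ X hconn).dim = X.dim := rfl

/-- `[n]` on the base change lies over `[n]`. -/
theorem bc_nsmulHom_comp_fst (n : ℕ) :
    (bc ψ X hconn).nsmulHom n ≫ bcFst ψ X.str = bcFst ψ X.str ≫ X.nsmulHom n := by
  have h1 := congrArg Subtype.val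
    (ptDown_bcLaw_nsmul X.law (bcHom ψ X.str) n RelativeGroupLaw.idPoint)
  have h2 := congrArg Subtype.val
    (X.law.nsmul_natural X.str (bcHom ψ X.str ≫ ψ) (bcFst ψ X.str)
      (bcFst_comp ψ X.str) n RelativeGroupLaw.idPoint)
  simp only [ptDown_coe, schemeHomOverComp_coe] at h1 h2
  have h3 : ptDown (RelativeGroupLaw.idPoint : SchemeHomOver (bcHom ψ X.str) (bcHom ψ X.str)) =
      schemeHomOverComp (bcFst ψ X.str) (bcFst_comp ψ X.str)
        (RelativeGroupLaw.idPoint : SchemeHomOver X.str X.str) :=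
    Subtype.ext (by simp)
  rw [h3] at h1
  exact h1.trans h2.symm

end AbVarBC

/-- **Leaf BC** (unfolded form of `Cube.BaseChangeExists K`, from the unfolded form of
`Cube.GeomIntegral K`): an abelian variety has a base change along every
`ψ : Spec F ⟶ Spec K`, `F` a field, which is an abelian variety over `F`, sits in a cartesian
square over `ψ`, and whose projection is compatible with the group laws. -/
theorem baseChange_exists (hGI : ∀ X : AbVar K, GeometricallyIntegral X.str)
    (X : AbVar K) (F : Type u) [Field F]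
    (ψ : Spec (CommRingCat.of F) ⟶ Spec (CommRingCat.of K)) :
    ∃ (X' : AbVar F) (π : X'.A ⟶ X.A) (hπ : π ≫ X.str = X'.str ≫ ψ),
      IsPullback π X'.str X.str ψ ∧
      ∀ {S : Scheme.{u}} (σ : S ⟶ Spec (CommRingCat.of F)) (a b : SchemeHomOver σ X'.str),
        (X'.law.mul σ a b).1 ≫ π =
          (X.law.mul (σ ≫ ψ) ⟨a.1 ≫ π, by rw [Category.assoc, hπ, ← Category.assoc, a.2]⟩
            ⟨b.1 ≫ π, by rw [Category.assoc, hπ, ← Category.assoc, b.2]⟩).1 := by
  have := hGI X
  exact ⟨bc ψ X (connectedSpace_bcObj ψ X.str), bcFst ψ X.str, bcFst_comp ψ X.str,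
    isPullback_bc ψ X.str, fun σ a b => bcLaw_mul_comp_fst X.law σ a b⟩

end

end Fermat.Agent.S26.H658
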